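import Mathlib.Analysis.Convex.Hull
import Mathlib.Analysis.Convex.Combination
import Mathlib.Analysis.Normed.Module.Basic
import Mathlib.LinearAlgebra.Matrix.Notation
import Mathlib.Topology.Algebra.Order.LiminfLimsup
import Mathlib.Tactic.LinearCombination
import Mathlib.Tactic.FinCases
import Mathlib.Tactic.Linarith
import Mathlib.Tactic.FieldSimp

/-!
# Signed families of triangles with vanishing indicator

If an integral combination of the indicators of oriented triangles vanishes away from the lines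
of their sides, the same combination of their boundaries is zero as a chain. We state this for
edge functions which are differences of a potential on every line: nothing needs to be subdivided.
-/

set_option autoImplicit false

noncomputable section

open Finset Filter Topology

namespace Fermat.Agent.Equidissection

/-- Points of the plane. -/
abbrev Pt : Type := ℝ × ℝ

/-- The cross product. -/
def cross (u v : Pt) : ℝ := u.1 * v.2 - u.2 * v.1

/-- Twice the signed area of a triangle. -/
def orient (a b c : Pt) : ℝ := cross (b - a) (c - a)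

theorem orient_self_left (a c : Pt) : orient a a c = 0 := by simp [orient, cross]

theorem orient_cycle (a b c : Pt) : orient b c a = orient a b c := by
  simp [orient, cross]; ring

/-- The line through two points. -/
def lineSet (a b : Pt) : Set Pt := {q | orient a b q = 0}

/-- The standard parametrisation of a line. -/
def point (a b : Pt) (t : ℝ) : Pt := a + t • (b - a)

theorem orient_point (a b c d : Pt) (t : ℝ) :
    orient c d (point a b t) = (1 - t) * orient c d a + t * orient c d b := by
  simp [orient, cross, point]; ring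

theorem mem_lineSet_iff {a b : Pt} (h : a ≠ b) (q : Pt) :
    q ∈ lineSet a b ↔ ∃ t, q = point a b t := by
  constructor
  · intro hq
    have hq : (b.1 - a.1) * (q.2 - a.2) - (b.2 - a.2) * (q.1 - a.1) = 0 := by
      simpa [lineSet, orient, cross] using hq
    rcases ne_or_eq (b.1 - a.1) 0 with h1 | h1
    · refine ⟨(q.1 - a.1) / (b.1 - a.1), Prod.ext ?_ ?_⟩
      · simp [point, div_mul_cancel₀ _ h1]
      · simp [point]; field_simp; linear_combination hq
    · have h2 : b.2 - a.2 ≠ 0 := fun h2 => h (Prod.ext (by linarith) (by linarith))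
      refine ⟨(q.2 - a.2) / (b.2 - a.2), Prod.ext ?_ ?_⟩
      · simp [point, h1]
        rw [h1, zero_mul, zero_sub, neg_eq_zero, mul_eq_zero] at hq
        linarith [hq.resolve_left h2]
      · simp [point, div_mul_cancel₀ _ h2]
  · rintro ⟨t, rfl⟩
    simp [lineSet, orient, cross, point]
    ring

theorem point_zero (a b : Pt) : point a b 0 = a := by simp [point]

theorem point_one (a b : Pt) : point a b 1 = b := by simp [point]

theorem point_injective {a b : Pt} (h : a ≠ b) : Function.Injective (point a b) := fun s t hst => by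
  have : (s - t) • (b - a) = 0 := by
    rw [sub_smul]; exact sub_eq_zero.2 (add_left_cancel hst)
  rcases smul_eq_zero.1 this with h' | h'
  · linarith
  · exact absurd (sub_eq_zero.1 h').symm h

/-- Two lines with two common points agree. -/
theorem lineSet_eq_of_mem {a b c d : Pt} (hab : a ≠ b) (hcd : c ≠ d) (hc : c ∈ lineSet a b)
    (hd : d ∈ lineSet a b) : lineSet c d = lineSet a b := by
  obtain ⟨s, rfl⟩ := (mem_lineSet_iff hab c).1 hc
  obtain ⟨t, rfl⟩ := (mem_lineSet_iff hab d).1 hd
  have hst : t - s ≠ 0 := sub_ne_zero.2 fun h => hcd (by rw [h])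
  have key : ∀ q, orient (point a b s) (point a b t) q = (t - s) * orient a b q := fun q => by
    simp [orient, cross, point]; ring
  ext q
  simp [lineSet, key, hst]

theorem left_mem_lineSet (a b : Pt) : a ∈ lineSet a b := by simp [lineSet, orient, cross]

theorem right_mem_lineSet (a b : Pt) : b ∈ lineSet a b := by
  simp [lineSet, orient, cross]; ring

/-- The side functions of a triangle are nonnegative exactly on it. -/
theorem mem_convexHull_iff {a b c : Pt} (h : 0 < orient a b c) (q : Pt) :
    q ∈ convexHull ℝ ({a, b, c} : Set Pt) ↔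
      0 ≤ orient a b q ∧ 0 ≤ orient b c q ∧ 0 ≤ orient c a q := by
  constructor
  · intro hq
    have hconv : ∀ x y : Pt, Convex ℝ {z : Pt | 0 ≤ orient x y z} := by
      intro x y z hz w hw r s hr hs hrs
      obtain rfl : s = 1 - r := by linarith
      have := add_nonneg (mul_nonneg hr hz) (mul_nonneg hs hw)
      show 0 ≤ orient x y (r • z + (1 - r) • w)
      refine this.trans_eq ?_
      simp [orient, cross]; ring
    have habc : 0 ≤ orient a b c ∧ 0 ≤ orient b c a ∧ 0 ≤ orient c a b := by
      rw [orient_cycle a b c, ← orient_cycle c a b]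
      exact ⟨h.le, h.le, h.le⟩
    refine ⟨convexHull_min ?_ (hconv a b) hq, convexHull_min ?_ (hconv b c) hq,
      convexHull_min ?_ (hconv c a) hq⟩ <;>
    · rintro z (rfl | rfl | rfl) <;>
        first
        | exact habc.1
        | exact habc.2.1
        | exact habc.2.2
        | simp [orient, cross, mul_comm]
  · rintro ⟨h1, h2, h3⟩
    have hsum : orient a b q + orient b c q + orient c a q = orient a b c := by
      simp [orient, cross]; ring
    have hq : q = (orient b c q / orient a b c) • a + (orient c a q / orient a b c) • b +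
        (orient a b q / orient a b c) • c := by
      ext <;> simp <;> field_simp <;> simp [orient, cross] <;> ring
    rw [hq]
    have hmem : ∀ z ∈ ({a, b, c} : Set Pt), z ∈ convexHull ℝ ({a, b, c} : Set Pt) :=
      subset_convexHull ℝ _
    have hw : ∀ i : Fin 3, 0 ≤ ![orient b c q / orient a b c, orient c a q / orient a b c,
        orient a b q / orient a b c] i := fun i => by
      fin_cases i <;> simp <;> positivity
    have hone : ∑ i : Fin 3, ![orient b c q / orient a b c, orient c a q / orient a b c,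
        orient a b q / orient a b c] i = 1 := by
      simp only [Fin.sum_univ_three, Matrix.cons_val_zero, Matrix.cons_val_one, Matrix.cons_val]
      rw [← add_div, ← add_div, div_eq_one_iff_eq h.ne']
      linarith
    have hpts : ∀ i : Fin 3, ![a, b, c] i ∈ convexHull ℝ ({a, b, c} : Set Pt) := fun i => by
      fin_cases i <;> exact hmem _ (by simp)
    have := (convex_convexHull ℝ ({a, b, c} : Set Pt)).sum_mem
      (t := (Finset.univ : Finset (Fin 3))) (fun i _ => hw i) hone (fun i _ => hpts i)
    simpa [Fin.sum_univ_three] using this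

theorem interior_of_pos {a b c : Pt} (h : 0 < orient a b c) {q : Pt}
    (h1 : 0 < orient a b q) (h2 : 0 < orient b c q) (h3 : 0 < orient c a q) :
    q ∈ interior (convexHull ℝ ({a, b, c} : Set Pt)) := by
  refine mem_interior.2 ⟨{z | 0 < orient a b z} ∩ {z | 0 < orient b c z} ∩ {z | 0 < orient c a z},
    fun z hz => (mem_convexHull_iff h z).2 ⟨hz.1.1.le, hz.1.2.le, hz.2.le⟩, ?_, ⟨⟨h1, h2⟩, h3⟩⟩
  have hcont : ∀ x y : Pt, Continuous (orient x y) := fun x y => by unfold orient cross; fun_prop
  exact ((isOpen_lt continuous_const (hcont a b)).inter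
    (isOpen_lt continuous_const (hcont b c))).inter (isOpen_lt continuous_const (hcont c a))

/-- Step functions of finitely many intervals determine the endpoints. -/
theorem sum_steps_eq {E G : Type*} [Fintype E] [AddCommGroup G] (w : E → ℤ) (s s' : E → ℝ)
    (F : Set ℝ) (hF : F.Finite)
    (h : ∀ t ∉ F, ∑ e, w e * ((if s e < t then 1 else 0) - if s' e < t then 1 else 0) = 0)
    (φ : ℝ → G) : ∑ e, w e • (φ (s' e) - φ (s e)) = 0 := by
  classical
  have hjump : ∀ x, ∑ e, w e * ((if s e = x then 1 else 0) - if s' e = x then 1 else 0) = 0 := by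
    intro x
    have hout : ∀ l : Filter ℝ, l ≤ 𝓝[≠] x → ∀ᶠ t in l, t ∉ F := fun l hl =>
      hl (mem_of_superset (sdiff_mem_nhdsWithin_compl
        ((hF.sdiff).isClosed.isOpen_compl.mem_nhds (fun hx => hx.2 rfl : x ∈ (F \ {x})ᶜ)) {x})
        fun t ht htF => ht.1 ⟨htF, ht.2⟩)
    have hside : ∀ y : ℝ, (∀ᶠ t in 𝓝[>] x, (y < t ↔ y ≤ x)) ∧
        ∀ᶠ t in 𝓝[<] x, (y < t ↔ y < x) := fun y => by
      constructor
      · rcases le_or_gt y x with hy | hy
        · filter_upwards [self_mem_nhdsWithin] with t (ht : x < t)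
          exact iff_of_true (hy.trans_lt ht) hy
        · filter_upwards [mem_nhdsWithin_of_mem_nhds (Iio_mem_nhds hy)] with t (ht : t < y)
          exact iff_of_false ht.le.not_gt hy.not_ge
      · rcases lt_or_ge y x with hy | hy
        · filter_upwards [mem_nhdsWithin_of_mem_nhds (Ioi_mem_nhds hy)] with t (ht : y < t)
          exact iff_of_true ht hy
        · filter_upwards [self_mem_nhdsWithin] with t (ht : t < x)
          exact iff_of_false (ht.trans_le hy).le.not_gt hy.not_gt
    obtain ⟨t, ⟨htF, ht⟩, ht'⟩ := (((hout (𝓝[>] x) (nhdsWithin_mono x fun t ht => ne_of_gt ht)).and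
      (Filter.eventually_all.2 fun e => (hside (s e)).1)).and
      (Filter.eventually_all.2 fun e => (hside (s' e)).1)).exists
    obtain ⟨u, ⟨huF, hu⟩, hu'⟩ := (((hout (𝓝[<] x) (nhdsWithin_mono x fun t ht => ne_of_lt ht)).and
      (Filter.eventually_all.2 fun e => (hside (s e)).2)).and
      (Filter.eventually_all.2 fun e => (hside (s' e)).2)).exists
    have hsub := (sub_eq_zero.2 ((h t htF).trans (h u huF).symm))
    rw [← Finset.sum_sub_distrib] at hsub
    refine (Finset.sum_congr rfl fun e _ => ?_).trans hsub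
    have hid : ∀ y : ℝ, (if y = x then (1 : ℤ) else 0) =
        (if y ≤ x then 1 else 0) - if y < x then 1 else 0 := fun y => by
      rcases lt_trichotomy y x with h1 | h1 | h1
      · rw [if_neg h1.ne, if_pos h1.le, if_pos h1, sub_self]
      · rw [if_pos h1, if_pos h1.le, if_neg h1.not_lt, sub_zero]
      · rw [if_neg h1.ne', if_neg h1.not_ge, if_neg h1.not_gt, sub_self]
    simp only [ht e, ht' e, hu e, hu' e, hid]
    ring
  set X := univ.image s ∪ univ.image s' with hX
  have hexp : ∀ r : E → ℝ, (∀ e, r e ∈ X) →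
      ∑ e, w e • φ (r e) = ∑ x ∈ X, (∑ e, w e * if r e = x then 1 else 0) • φ x := fun r hr => by
    simp only [Finset.sum_smul, mul_ite, mul_one, mul_zero, ite_smul, zero_smul]
    rw [Finset.sum_comm]
    exact Finset.sum_congr rfl fun e _ => by rw [Finset.sum_ite_eq X (r e), if_pos (hr e)]
  simp only [smul_sub, Finset.sum_sub_distrib]
  rw [hexp s (by simp [hX]), hexp s' (by simp [hX]), ← Finset.sum_sub_distrib]
  refine Finset.sum_eq_zero fun x _ => ?_
  have h := hjump x
  simp only [mul_sub, Finset.sum_sub_distrib, sub_eq_zero] at h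
  rw [h, sub_self]

/-- The indicator of an oriented triangle. -/
def indicatorTri (T : Fin 3 → Pt) (q : Pt) : ℤ :=
  if ∀ k, 0 ≤ orient (T k) (T (k + 1)) q then 1 else 0

theorem orient_rotate (T : Fin 3 → Pt) (k : Fin 3) :
    orient (T k) (T (k + 1)) (T (k + 1 + 1)) = orient (T 0) (T 1) (T 2) := by
  fin_cases k <;> simp [orient, cross] <;> ring

theorem orient_sum (T : Fin 3 → Pt) (q : Pt) :
    ∑ k, orient (T k) (T (k + 1)) q = orient (T 0) (T 1) (T 2) := by
  simp [Fin.sum_univ_three, orient, cross]; ring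

/-- Near a point off a line the side function keeps its sign. -/
theorem eventually_sign {x y p ν : Pt} (h : orient x y p ≠ 0) :
    ∀ᶠ ε in 𝓝 (0 : ℝ), orient x y (p + ε • ν) ≠ 0 ∧ orient x y (p + (-ε) • ν) ≠ 0 ∧
      (0 ≤ orient x y (p + ε • ν) ↔ 0 < orient x y p) ∧
      (0 ≤ orient x y (p + (-ε) • ν) ↔ 0 < orient x y p) := by
  have hval : ∀ ε : ℝ, orient x y (p + ε • ν) = orient x y p + ε * cross (y - x) ν := fun ε => by
    simp [orient, cross]; ring
  simp only [hval]
  set L := orient x y p
  set c := cross (y - x) ν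
  have h1 : Tendsto (fun ε : ℝ => L + ε * c) (𝓝 0) (𝓝 L) :=
    (by fun_prop : Continuous fun ε : ℝ => L + ε * c).tendsto' _ _ (by simp)
  have h2 : Tendsto (fun ε : ℝ => L + -ε * c) (𝓝 0) (𝓝 L) :=
    (by fun_prop : Continuous fun ε : ℝ => L + -ε * c).tendsto' _ _ (by simp)
  rcases lt_or_gt_of_ne h with hL | hL
  · filter_upwards [h1.eventually (gt_mem_nhds hL), h2.eventually (gt_mem_nhds hL)] with ε ha hb
    exact ⟨ha.ne, hb.ne, iff_of_false ha.not_ge hL.not_gt, iff_of_false hb.not_ge hL.not_gt⟩
  · filter_upwards [h1.eventually (lt_mem_nhds hL), h2.eventually (lt_mem_nhds hL)] with ε ha hb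
    exact ⟨ha.ne', hb.ne', iff_of_true ha.le hL, iff_of_true hb.le hL⟩

/-- The normal of a line. -/
def normal (a b : Pt) : Pt := (-(b - a).2, (b - a).1)

theorem cross_normal_pos {a b : Pt} (hab : a ≠ b) : 0 < cross (b - a) (normal a b) := by
  simp only [cross, normal]
  rcases ne_or_eq (b - a).1 0 with h1 | h1
  · nlinarith [mul_self_pos.2 h1, mul_self_nonneg (b - a).2]
  · have h2 : (b - a).2 ≠ 0 := fun h2 => hab (sub_eq_zero.1 (Prod.ext h1 h2)).symm
    nlinarith [mul_self_pos.2 h2]

theorem orient_normal (a b : Pt) (s s' t ε : ℝ) :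
    orient (point a b s) (point a b s') (point a b t + ε • normal a b) =
      ε * (s' - s) * cross (b - a) (normal a b) := by
  simp [orient, cross, point, normal]; ring

/-- The jump of the indicator of a triangle across the line of one of its sides. -/
theorem indicatorTri_jump (T : Fin 3 → Pt) (hT : 0 < orient (T 0) (T 1) (T 2)) (k : Fin 3)
    {a b : Pt} (hab : a ≠ b) {s s' t ε : ℝ} (hs : T k = point a b s)
    (hs' : T (k + 1) = point a b s') (hst : s ≠ t) (hst' : s' ≠ t) (hε : 0 < ε)
    (hother : ∀ l, l ≠ k →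
      (0 ≤ orient (T l) (T (l + 1)) (point a b t + ε • normal a b) ↔
        0 < orient (T l) (T (l + 1)) (point a b t)) ∧
      (0 ≤ orient (T l) (T (l + 1)) (point a b t + (-ε) • normal a b) ↔
        0 < orient (T l) (T (l + 1)) (point a b t))) :
    indicatorTri T (point a b t + ε • normal a b) -
        indicatorTri T (point a b t + (-ε) • normal a b) =
      (if s < t then 1 else 0) - if s' < t then 1 else 0 := by
  rw [← orient_rotate T k] at hT
  set D := orient (T k) (T (k + 1)) (T (k + 1 + 1)) with hDdef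
  have hss : s' - s ≠ 0 := sub_ne_zero.2 fun h => hT.ne' (by
    rw [hDdef, hs, hs', h, orient_self_left])
  set u := (t - s) / (s' - s) with hu'
  have hu : u * (s' - s) = t - s := div_mul_cancel₀ _ hss
  have hpu : point a b t = point (T k) (T (k + 1)) u := by
    rw [hs, hs']
    ext <;> simp [point]
    · linear_combination -(b.1 - a.1) * hu
    · linear_combination -(b.2 - a.2) * hu
  have hL1 : orient (T (k + 1)) (T (k + 1 + 1)) (point a b t) = (1 - u) * D := by
    rw [hpu, hDdef]; simp [orient, cross, point]; ring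
  have hL2 : orient (T (k + 1 + 1)) (T (k + 1 + 1 + 1)) (point a b t) = u * D := by
    rw [hpu, hDdef, (by decide : ∀ k : Fin 3, k + 1 + 1 + 1 = k) k]
    simp [orient, cross, point]; ring
  have hcases : ∀ k l : Fin 3, k + 1 ≠ k ∧ k + 1 + 1 ≠ k ∧ (l = k ∨ l = k + 1 ∨ l = k + 1 + 1) := by
    decide
  obtain ⟨hk1, hk2, -⟩ := hcases k k
  obtain ⟨h1a, h1b⟩ := hother _ hk1
  obtain ⟨h2a, h2b⟩ := hother _ hk2
  rw [hL1, mul_pos_iff_of_pos_right hT, sub_pos] at h1a h1b
  rw [hL2, mul_pos_iff_of_pos_right hT] at h2a h2b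
  have hN := cross_normal_pos hab
  have h0 : ∀ δ : ℝ, δ ≠ 0 →
      (0 ≤ orient (T k) (T (k + 1)) (point a b t + δ • normal a b) ↔ 0 < δ * (s' - s)) := by
    intro δ hδ
    rw [hs, hs', orient_normal, mul_nonneg_iff_of_pos_right hN]
    exact ⟨fun h => lt_of_le_of_ne h (mul_ne_zero hδ hss).symm, le_of_lt⟩
  have hall : ∀ P : Fin 3 → Prop, (∀ l, P l) ↔ P k ∧ P (k + 1) ∧ P (k + 1 + 1) := fun P =>
    ⟨fun h => ⟨h _, h _, h _⟩, fun h l => by
      rcases (hcases k l).2.2 with rfl | rfl | rfl
      exacts [h.1, h.2.1, h.2.2]⟩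
  simp only [indicatorTri]
  simp only [hall fun l => 0 ≤ orient (T l) (T (l + 1)) _, h0 ε hε.ne', h0 (-ε) (neg_ne_zero.2
    hε.ne'), h1a, h1b, h2a, h2b]
  rcases lt_or_gt_of_ne hss with hlt | hlt
  · have h1 : ¬ 0 < ε * (s' - s) := (mul_neg_of_pos_of_neg hε hlt).not_gt
    have h2 : 0 < -ε * (s' - s) := mul_pos_of_neg_of_neg (by linarith) hlt
    have h3 : 0 < u ↔ t < s := by
      rw [hu', div_pos_iff]
      constructor
      · rintro (⟨-, h⟩ | ⟨h, -⟩) <;> linarith
      · exact fun h => Or.inr ⟨by linarith, hlt⟩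
    have h4 : u < 1 ↔ s' < t := by
      rw [hu', div_lt_one_of_neg hlt]
      constructor <;> intro h <;> linarith
    rcases lt_or_gt_of_ne hst with ha | ha <;> rcases lt_or_gt_of_ne hst' with hb | hb <;>
      simp [h1, h3, h4, ha, hb, ha.not_gt, hb.not_gt] <;> linarith
  · have h1 : 0 < ε * (s' - s) := mul_pos hε hlt
    have h2 : ¬ 0 < -ε * (s' - s) := by nlinarith
    have h3 : 0 < u ↔ s < t := by rw [hu', div_pos_iff_of_pos_right hlt, sub_pos]
    have h4 : u < 1 ↔ t < s' := by
      rw [hu', div_lt_one hlt]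
      constructor <;> intro h <;> linarith
    rcases lt_or_gt_of_ne hst with ha | ha <;> rcases lt_or_gt_of_ne hst' with hb | hb <;>
      simp [h1, h3, h4, ha, hb, ha.not_gt, hb.not_gt] <;> linarith

variable {ι : Type*} (T : ι → Fin 3 → Pt)

/-- The line of a side. -/
def sideLine (e : ι × Fin 3) : Set Pt := lineSet (T e.1 e.2) (T e.1 (e.2 + 1))

variable {T} (hpos : ∀ i, 0 < orient (T i 0) (T i 1) (T i 2))

include hpos in
theorem side_ne (i : ι) (k : Fin 3) : T i k ≠ T i (k + 1) := fun h => by
  have := hpos i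
  rw [← orient_rotate (T i) k, h, orient_self_left] at this
  exact lt_irrefl _ this

include hpos in
/-- One side of a triangle at most lies on a line. -/
theorem sideLine_injective (i : ι) (k l : Fin 3) (h : sideLine T (i, l) = sideLine T (i, k)) :
    l = k := by
  by_contra hne
  have h0 := hpos i
  rw [← orient_rotate (T i) k] at h0
  have hmem : T i (k + 1 + 1) ∈ sideLine T (i, k) := by
    have hcases : ∀ a b : Fin 3, a ≠ b → a = b + 1 ∨ a = b + 1 + 1 := by decide
    rcases hcases l k hne with rfl | rfl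
    · exact h ▸ right_mem_lineSet _ _
    · exact h ▸ left_mem_lineSet _ _
  exact h0.ne' hmem

/-- The jump of a signed family across a line. -/
theorem sum_steps_of_line [Fintype ι] (w : ι → ℤ)
    (hpos : ∀ i, 0 < orient (T i 0) (T i 1) (T i 2))
    (h : ∀ q, (∀ i k, orient (T i k) (T i (k + 1)) q ≠ 0) → ∑ i, w i * indicatorTri (T i) q = 0)
    {a b : Pt} (hab : a ≠ b) (E : Finset (ι × Fin 3))
    (hE : ∀ e, e ∈ E ↔ sideLine T e = lineSet a b) (s s' : E → ℝ)
    (hs : ∀ e : E, T e.1.1 e.1.2 = point a b (s e))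
    (hs' : ∀ e : E, T e.1.1 (e.1.2 + 1) = point a b (s' e)) (t : ℝ) (ht : ∀ e, s e ≠ t)
    (ht' : ∀ e, s' e ≠ t) (hoff : ∀ e, e ∉ E → point a b t ∉ sideLine T e) :
    ∑ e : E, w e.1.1 * ((if s e < t then 1 else 0) - if s' e < t then 1 else 0) = 0 := by
  classical
  have hN := cross_normal_pos hab
  have hev : ∀ e, e ∉ E → ∀ᶠ ε in 𝓝[>] (0 : ℝ), _ := fun e he =>
    (eventually_sign (ν := normal a b) (hoff e he)).filter_mono nhdsWithin_le_nhds
  obtain ⟨ε, hsign, hε⟩ := ((Filter.eventually_all.2 fun e : {e // e ∉ E} => hev e.1 e.2).and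
    (self_mem_nhdsWithin : Set.Ioi (0 : ℝ) ∈ 𝓝[>] 0)).exists
  have hε : 0 < ε := hε
  have hgen : ∀ i k, orient (T i k) (T i (k + 1)) (point a b t + ε • normal a b) ≠ 0 ∧
      orient (T i k) (T i (k + 1)) (point a b t + (-ε) • normal a b) ≠ 0 := by
    intro i k
    by_cases he : (i, k) ∈ E
    · have hne : s' ⟨_, he⟩ - s ⟨_, he⟩ ≠ 0 := sub_ne_zero.2 fun hss =>
        side_ne hpos i k ((hs ⟨_, he⟩).trans (hss ▸ (hs' ⟨_, he⟩).symm))
      rw [show T i k = _ from hs ⟨_, he⟩, show T i (k + 1) = _ from hs' ⟨_, he⟩, orient_normal,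
        orient_normal]
      exact ⟨mul_ne_zero (mul_ne_zero hε.ne' hne) hN.ne',
        mul_ne_zero (mul_ne_zero (neg_ne_zero.2 hε.ne') hne) hN.ne'⟩
    · exact ⟨(hsign ⟨_, he⟩).1, (hsign ⟨_, he⟩).2.1⟩
  have hdiff := sub_eq_zero.2 ((h _ fun i k => (hgen i k).1).trans
    (h _ fun i k => (hgen i k).2).symm)
  rw [← Finset.sum_sub_distrib] at hdiff
  set χ : ι × Fin 3 → ℤ := fun e => if he : e ∈ E then
    (if s ⟨e, he⟩ < t then 1 else 0) - (if s' ⟨e, he⟩ < t then 1 else 0) else 0
  have hone : ∀ i, indicatorTri (T i) (point a b t + ε • normal a b) -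
      indicatorTri (T i) (point a b t + (-ε) • normal a b) = ∑ k, χ (i, k) := by
    intro i
    by_cases hk : ∀ k, (i, k) ∉ E
    · rw [Finset.sum_eq_zero fun k _ => show χ (i, k) = 0 from dif_neg (hk k)]
      unfold indicatorTri
      rw [sub_eq_zero]
      refine if_congr (forall_congr' fun k => ?_) rfl rfl
      exact (hsign ⟨_, hk k⟩).2.2.1.trans (hsign ⟨_, hk k⟩).2.2.2.symm
    push Not at hk
    obtain ⟨k, hk⟩ := hk
    have hothers : ∀ l, l ≠ k → (i, l) ∉ E := fun l hl he =>
      hl (sideLine_injective hpos i k l (((hE _).1 he).trans ((hE _).1 hk).symm))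
    rw [Finset.sum_eq_single k (fun l _ hl => show χ (i, l) = 0 from dif_neg (hothers l hl))
      (by simp), show χ (i, k) = _ from dif_pos hk]
    exact indicatorTri_jump (T i) (hpos i) k hab (hs ⟨_, hk⟩) (hs' ⟨_, hk⟩) (ht _) (ht' _) hε
      fun l hl => (hsign ⟨_, hothers l hl⟩).2.2
  simp_rw [← mul_sub, hone, Finset.mul_sum] at hdiff
  rw [← Fintype.sum_prod_type' (f := fun i k => w i * χ (i, k)),
    ← Finset.sum_subset (Finset.subset_univ E) fun e _ he => by simp [χ, he],
    ← Finset.sum_attach E] at hdiff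
  refine Eq.trans ?_ hdiff
  rw [Finset.univ_eq_attach]
  exact Finset.sum_congr rfl fun e _ => congrArg _ (show χ e.1 = _ from dif_pos e.2).symm

/-- **The boundary of a null combination of triangles is null.** -/
theorem sum_boundary_eq_zero [Fintype ι] {G : Type*} [AddCommGroup G] (w : ι → ℤ)
    (hpos : ∀ i, 0 < orient (T i 0) (T i 1) (T i 2))
    (h : ∀ q, (∀ i k, orient (T i k) (T i (k + 1)) q ≠ 0) → ∑ i, w i * indicatorTri (T i) q = 0)
    (ω : Pt → Pt → G)
    (hω : ∀ a b, a ≠ b → ∃ φ : Pt → G, ∀ p ∈ lineSet a b, ∀ q ∈ lineSet a b,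
      ω p q = φ q - φ p) :
    ∑ i, w i • ∑ k, ω (T i k) (T i (k + 1)) = 0 := by
  classical
  simp_rw [Finset.smul_sum]
  rw [← Fintype.sum_prod_type' (f := fun i k => w i • ω (T i k) (T i (k + 1))),
    ← Finset.sum_fiberwise_of_maps_to (g := sideLine T) (t := univ.image (sideLine T))
      (fun e _ => Finset.mem_image_of_mem _ (mem_univ e))]
  refine Finset.sum_eq_zero fun ℓ hℓ => ?_
  obtain ⟨⟨i₀, k₀⟩, -, rfl⟩ := Finset.mem_image.1 hℓ
  set a := T i₀ k₀
  set b := T i₀ (k₀ + 1)
  have hab : a ≠ b := side_ne hpos _ _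
  obtain ⟨φ, hφ⟩ := hω a b hab
  set E := univ.filter fun e => sideLine T e = sideLine T (i₀, k₀)
  have hE : ∀ e, e ∈ E ↔ sideLine T e = lineSet a b := fun e =>
    Finset.mem_filter.trans ⟨fun h => h.2, fun h => ⟨mem_univ _, h⟩⟩
  have hend : ∀ e : E, ∃ s s' : ℝ, T e.1.1 e.1.2 = point a b s ∧
      T e.1.1 (e.1.2 + 1) = point a b s' := fun e => by
    have he := (hE _).1 e.2
    obtain ⟨s, hs⟩ := (mem_lineSet_iff hab _).1
      ((Set.ext_iff.1 he _).1 (left_mem_lineSet (T e.1.1 e.1.2) (T e.1.1 (e.1.2 + 1))))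
    obtain ⟨s', hs'⟩ := (mem_lineSet_iff hab _).1
      ((Set.ext_iff.1 he _).1 (right_mem_lineSet (T e.1.1 e.1.2) (T e.1.1 (e.1.2 + 1))))
    exact ⟨s, s', hs, hs'⟩
  choose s s' hs hs' using hend
  set F : Set ℝ := (⋃ e ∈ {e | e ∉ E}, {t | point a b t ∈ sideLine T e}) ∪
    Set.range s ∪ Set.range s' with hFdef
  have hF : F.Finite := by
    refine ((Set.Finite.biUnion (Set.toFinite _) fun e he => ?_).union
      (Set.finite_range s)).union (Set.finite_range s')
    refine Set.Subsingleton.finite fun t ht u hu => ?_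
    by_contra htu
    refine he ((hE e).2 ?_)
    have h1 := lineSet_eq_of_mem (side_ne hpos e.1 e.2)
      (fun hpt => htu (point_injective hab hpt)) ht hu
    have h2 := lineSet_eq_of_mem hab (fun hpt => htu (point_injective hab hpt))
      ((mem_lineSet_iff hab _).2 ⟨t, rfl⟩) ((mem_lineSet_iff hab _).2 ⟨u, rfl⟩)
    exact h1.symm.trans h2
  have hstep : ∀ t ∉ F, ∑ e : E, w e.1.1 *
      ((if s e < t then 1 else 0) - if s' e < t then 1 else 0) = 0 := fun t ht => by
    simp only [hFdef, Set.mem_union, Set.mem_iUnion, Set.mem_range, not_or, not_exists] at ht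
    exact sum_steps_of_line w hpos h hab E hE s s' hs hs' t ht.1.2 ht.2 ht.1.1
  have := sum_steps_eq (fun e : E => w e.1.1) s s' F hF hstep fun r => φ (point a b r)
  rw [← Finset.sum_attach E]
  refine Eq.trans ?_ this
  rw [Finset.univ_eq_attach]
  refine Finset.sum_congr rfl fun e _ => congrArg _ ?_
  rw [hs e, hs' e]
  exact hφ _ ((mem_lineSet_iff hab _).2 ⟨_, rfl⟩) _ ((mem_lineSet_iff hab _).2 ⟨_, rfl⟩)

end Fermat.Agent.Equidissection
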