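import Fermat.Agent.Equidissection.Planar
import Mathlib.Data.ZMod.Basic
import Mathlib.RingTheory.Valuation.LocalSubring

/-!
# The equidissection theorem of Monsky

The points of the plane are coloured by a valuation of `ℝ` which extends the dyadic one. A line
meets at most two colours, so the number of red-blue sides is additive along lines; hence some
triangle of a dissection of the square has all three colours, and its doubled area is large.
-/

set_option autoImplicit false

noncomputable section

open Finset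

namespace Fermat.Agent.Equidissection

/-- The dyadic valuation extends to the reals. -/
theorem exists_dyadic_valuationSubring : ∃ V : ValuationSubring ℝ, V.valuation 2 < 1 := by
  set A : Subring ℝ := (Int.castRingHom ℝ).range
  have h2 : (2 : ℝ) ∈ A := ⟨2, by simp⟩
  have hI : Ideal.span {(⟨2, h2⟩ : A)} ≠ ⊤ := fun h => by
    obtain ⟨⟨_, m, rfl⟩, hm⟩ :=
      Ideal.mem_span_singleton'.1 ((Ideal.eq_top_iff_one _).1 h)
    have h1 : (m : ℝ) * 2 = 1 := congrArg Subtype.val hm
    have h3 : m * 2 = 1 := by exact_mod_cast h1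
    omega
  obtain ⟨V, -, hV⟩ := Ideal.image_subset_nonunits_valuationSubring _ hI
  exact ⟨V, (V.mem_nonunits_iff).1 (hV ⟨_, Ideal.mem_span_singleton_self _, rfl⟩)⟩

theorem valuation_natCast_of_odd (V : ValuationSubring ℝ) (h2 : V.valuation 2 < 1) {n : ℕ}
    (hn : Odd n) : V.valuation (n : ℝ) = 1 := by
  obtain ⟨m, rfl⟩ := hn
  have hlt : V.valuation (2 * (m : ℝ)) < 1 := by
    rw [map_mul]
    exact mul_lt_one_of_lt_of_le h2 ((V.valuation_le_one_iff _).2 (natCast_mem V m))
  rw [Nat.cast_add, Nat.cast_mul, Nat.cast_ofNat, Nat.cast_one, add_comm]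
  exact V.valuation.map_one_add_of_lt hlt

variable (V : ValuationSubring ℝ)

open Classical in
/-- The colour of a point. -/
def colour (p : Pt) : Fin 3 :=
  if V.valuation p.1 < 1 ∧ V.valuation p.2 < 1 then 0
  else if V.valuation p.2 ≤ V.valuation p.1 then 1 else 2

theorem colour_eq_zero {p : Pt} (h : colour V p = 0) :
    V.valuation p.1 < 1 ∧ V.valuation p.2 < 1 := by
  unfold colour at h
  split_ifs at h with h1 h2 <;> simp_all

theorem colour_eq_one {p : Pt} (h : colour V p = 1) :
    1 ≤ V.valuation p.1 ∧ V.valuation p.2 ≤ V.valuation p.1 := by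
  unfold colour at h
  split_ifs at h with h1 h2 <;> simp_all
  rcases not_and_or.1 (fun hh : V.valuation p.1 < 1 ∧ V.valuation p.2 < 1 =>
    (h1 hh.1).not_gt hh.2) with h3 | h3
  · exact not_lt.1 h3
  · exact (not_lt.1 h3).trans h2

theorem colour_eq_two {p : Pt} (h : colour V p = 2) :
    1 ≤ V.valuation p.2 ∧ V.valuation p.1 < V.valuation p.2 := by
  unfold colour at h
  split_ifs at h with h1 h2 <;> simp_all
  by_contra hlt
  exact hlt ((h1 (h2.trans (not_le.1 hlt))))

/-- A triangle of three colours has large area. -/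
theorem one_le_valuation_orient {a b c : Pt} (ha : colour V a = 0) (hb : colour V b = 1)
    (hc : colour V c = 2) : 1 ≤ V.valuation (orient a b c) := by
  obtain ⟨ha1, ha2⟩ := colour_eq_zero V ha
  obtain ⟨hb1, hb2⟩ := colour_eq_one V hb
  obtain ⟨hc1, hc2⟩ := colour_eq_two V hc
  set v := V.valuation
  have e1 : v (b.1 - a.1) = v b.1 := Valuation.map_sub_eq_of_lt_left v (ha1.trans_le hb1)
  have e2 : v (c.2 - a.2) = v c.2 := Valuation.map_sub_eq_of_lt_left v (ha2.trans_le hc1)
  have e3 : v (b.2 - a.2) ≤ v b.1 := Valuation.map_sub_le v hb2 (ha2.le.trans hb1)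
  have e4 : v (c.1 - a.1) < v c.2 :=
    lt_of_le_of_lt (Valuation.map_sub v _ _) (max_lt hc2 (ha1.trans_le hc1))
  have hlt : v ((b.2 - a.2) * (c.1 - a.1)) < v ((b.1 - a.1) * (c.2 - a.2)) := by
    rw [map_mul, map_mul, e1, e2]
    exact mul_lt_mul_of_le_of_lt_of_nonneg_of_pos e3 e4 zero_le (zero_lt_one.trans_le hb1)
  rw [show orient a b c = (b.1 - a.1) * (c.2 - a.2) - (b.2 - a.2) * (c.1 - a.1) from rfl,
    Valuation.map_sub_eq_of_lt_left v hlt, map_mul, e1, e2]
  exact one_le_mul hb1 hc1

theorem orient_eq_zero_of_mem {a b p q r : Pt} (hab : a ≠ b) (hp : p ∈ lineSet a b)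
    (hq : q ∈ lineSet a b) (hr : r ∈ lineSet a b) : orient p q r = 0 := by
  obtain ⟨s, rfl⟩ := (mem_lineSet_iff hab _).1 hp
  obtain ⟨t, rfl⟩ := (mem_lineSet_iff hab _).1 hq
  obtain ⟨u, rfl⟩ := (mem_lineSet_iff hab _).1 hr
  simp [orient, cross, point]; ring

/-- Red-blue pairs. -/
def redBlue (i j : Fin 3) : ZMod 2 := if (i = 0 ∧ j = 1) ∨ (i = 1 ∧ j = 0) then 1 else 0

/-- The red-blue count is a difference of a potential on each line. -/
theorem exists_potential {a b : Pt} (hab : a ≠ b) :
    ∃ φ : Pt → ZMod 2, ∀ p ∈ lineSet a b, ∀ q ∈ lineSet a b,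
      redBlue (colour V p) (colour V q) = φ q - φ p := by
  by_cases h : ∃ r ∈ lineSet a b, colour V r = 2
  · obtain ⟨r, hr, hr2⟩ := h
    have key : ∀ p ∈ lineSet a b, ∀ q ∈ lineSet a b, colour V p = 0 → colour V q ≠ 1 :=
      fun p hp q hq hp0 hq1 => by
        have := one_le_valuation_orient V hp0 hq1 hr2
        rw [orient_eq_zero_of_mem hab hp hq hr, map_zero] at this
        exact zero_lt_one.not_ge this
    refine ⟨0, fun p hp q hq => ?_⟩
    rw [redBlue, if_neg, Pi.zero_apply, Pi.zero_apply, sub_zero]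
    rintro (⟨h1, h2⟩ | ⟨h1, h2⟩)
    exacts [key p hp q hq h1 h2, key q hq p hp h2 h1]
  · push Not at h
    refine ⟨fun p => if colour V p = 1 then 1 else 0, fun p hp q hq => ?_⟩
    have hdec : ∀ i j : Fin 3, i ≠ 2 → j ≠ 2 →
        redBlue i j = (if j = 1 then (1 : ZMod 2) else 0) - if i = 1 then 1 else 0 := by
      unfold redBlue; decide
    exact hdec _ _ (h p hp) (h q hq)

/-- The lower half of the unit square. -/
def lowerHalf : Fin 3 → Pt := ![(0, 0), (1, 0), (1, 1)]

/-- The upper half of the unit square. -/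
def upperHalf : Fin 3 → Pt := ![(0, 0), (1, 1), (0, 1)]

/-- Triangles which cover the square once, off their sides. -/
def CoversSquareOnce {ι : Type*} [Fintype ι] (T : ι → Fin 3 → Pt) : Prop :=
  ∀ q, (∀ i k, orient (T i k) (T i (k + 1)) q ≠ 0) →
    (∀ k, orient (lowerHalf k) (lowerHalf (k + 1)) q ≠ 0) →
    (∀ k, orient (upperHalf k) (upperHalf (k + 1)) q ≠ 0) →
    ∑ i, indicatorTri (T i) q = indicatorTri lowerHalf q + indicatorTri upperHalf q

variable {ι : Type*} [Fintype ι] {T : ι → Fin 3 → Pt}

theorem CoversSquareOnce.sum_eq (hT : CoversSquareOnce T)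
    (hpos : ∀ i, 0 < orient (T i 0) (T i 1) (T i 2)) {G : Type*} [AddCommGroup G]
    (ω : Pt → Pt → G)
    (hω : ∀ a b, a ≠ b → ∃ φ : Pt → G, ∀ p ∈ lineSet a b, ∀ q ∈ lineSet a b,
      ω p q = φ q - φ p) :
    ∑ i, ∑ k, ω (T i k) (T i (k + 1)) =
      ∑ k, ω (lowerHalf k) (lowerHalf (k + 1)) + ∑ k, ω (upperHalf k) (upperHalf (k + 1)) := by
  let T' : ι ⊕ Fin 2 → Fin 3 → Pt := Sum.elim T ![lowerHalf, upperHalf]
  let w : ι ⊕ Fin 2 → ℤ := Sum.elim 1 fun _ => -1
  have h := sum_boundary_eq_zero (T := T') w ?_ ?_ ω hω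
  · simp only [Fintype.sum_sum_type, Fin.sum_univ_two, T', w, Sum.elim_inl, Sum.elim_inr,
      Pi.one_apply, one_smul, neg_smul, Matrix.cons_val_zero, Matrix.cons_val_one] at h
    rw [← sub_eq_zero, ← h]
    abel
  · rintro (i | i)
    · exact hpos i
    · fin_cases i <;> simp [T', lowerHalf, upperHalf, orient, cross]
  · intro q hq
    have := hT q (fun i k => hq (Sum.inl i) k) (fun k => hq (Sum.inr 0) k)
      (fun k => hq (Sum.inr 1) k)
    simp only [Fintype.sum_sum_type, Fin.sum_univ_two, T', w, Sum.elim_inl, Sum.elim_inr,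
      Pi.one_apply, one_mul, neg_one_mul, Matrix.cons_val_zero, Matrix.cons_val_one, this]
    ring

/-- The areas add up. -/
theorem CoversSquareOnce.sum_orient (hT : CoversSquareOnce T)
    (hpos : ∀ i, 0 < orient (T i 0) (T i 1) (T i 2)) :
    ∑ i, orient (T i 0) (T i 1) (T i 2) = 2 := by
  have hcyc : ∀ S : Fin 3 → Pt,
      ∑ k, cross (S k) (S (k + 1)) = orient (S 0) (S 1) (S 2) := fun S => by
    simp [Fin.sum_univ_three, orient, cross]; ring
  have h := hT.sum_eq hpos cross fun a b hab => ⟨cross a, fun p hp q hq => ?_⟩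
  · rw [hcyc, hcyc] at h
    simp only [hcyc] at h
    rw [h]
    simp [lowerHalf, upperHalf, orient, cross]
    norm_num
  · obtain ⟨s, rfl⟩ := (mem_lineSet_iff hab _).1 hp
    obtain ⟨t, rfl⟩ := (mem_lineSet_iff hab _).1 hq
    simp [cross, point]; ring

/-- **Some triangle has all three colours.** -/
theorem CoversSquareOnce.exists_valuation_ge (hT : CoversSquareOnce T)
    (hpos : ∀ i, 0 < orient (T i 0) (T i 1) (T i 2)) :
    ∃ i, 1 ≤ V.valuation (orient (T i 0) (T i 1) (T i 2)) := by
  by_contra hno
  push Not at hno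
  have hzero : ∀ i, ∑ k, redBlue (colour V (T i k)) (colour V (T i (k + 1))) = 0 := fun i => by
    have hmiss : ∃ c, colour V (T i 0) ≠ c ∧ colour V (T i 1) ≠ c ∧ colour V (T i 2) ≠ c := by
      by_contra hall
      push Not at hall
      have hsurj : ∀ c, ∃ k, colour V (T i k) = c := fun c => by
        by_contra hc
        push Not at hc
        exact hc 2 (hall c (hc 0) (hc 1))
      obtain ⟨k, hk⟩ := hsurj 0
      obtain ⟨l, hl⟩ := hsurj 1
      obtain ⟨m, hm⟩ := hsurj 2
      refine (hno i).not_ge ?_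
      have hperm : orient (T i k) (T i l) (T i m) = orient (T i 0) (T i 1) (T i 2) ∨
          orient (T i k) (T i l) (T i m) = -orient (T i 0) (T i 1) (T i 2) := by
        fin_cases k <;> fin_cases l <;> fin_cases m <;> simp_all <;>
          first
          | (left; simp [orient, cross]; ring; done)
          | (right; simp [orient, cross]; ring; done)
      have h := one_le_valuation_orient V hk hl hm
      rcases hperm with e | e <;> rw [e] at h
      exacts [h, by rwa [Valuation.map_neg] at h]
    have hdec : ∀ i j k : Fin 3, (∃ c, i ≠ c ∧ j ≠ c ∧ k ≠ c) →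
        redBlue i j + redBlue j k + redBlue k i = 0 := by
      unfold redBlue; decide
    rw [Fin.sum_univ_three]
    exact hdec _ _ _ hmiss
  have h := hT.sum_eq hpos (fun p q => redBlue (colour V p) (colour V q))
    fun a b hab => exists_potential V hab
  simp only [hzero, Finset.sum_const_zero] at h
  have c00 : colour V (0, 0) = 0 := by simp [colour]
  have c10 : colour V (1, 0) = 1 := by simp [colour]
  have c11 : colour V (1, 1) = 1 := by simp [colour]
  have c01 : colour V (0, 1) = 2 := by simp [colour]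
  simp [lowerHalf, upperHalf, Fin.sum_univ_three, c00, c10, c11, c01] at h
  revert h
  unfold redBlue
  decide

theorem range_eq_triple (S : Fin 3 → Pt) : Set.range S = {S 0, S 1, S 2} := by
  ext z
  simp [Fin.exists_fin_succ, eq_comm]

theorem indicatorTri_eq (S : Fin 3 → Pt) (hS : 0 < orient (S 0) (S 1) (S 2)) (q : Pt)
    [Decidable (q ∈ convexHull ℝ (Set.range S))] :
    indicatorTri S q = if q ∈ convexHull ℝ (Set.range S) then 1 else 0 := by
  refine if_congr ?_ rfl rfl
  rw [range_eq_triple, mem_convexHull_iff hS, Fin.forall_fin_succ, Fin.forall_fin_two]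
  simp

/-- A dissection covers the square once. -/
theorem coversSquareOnce_of_dissection (hpos : ∀ i, 0 < orient (T i 0) (T i 1) (T i 2))
    (hunion : ⋃ i, convexHull ℝ (Set.range (T i)) = Set.Icc (0, 0) (1, 1))
    (hdisj : Pairwise fun i j => Disjoint (interior (convexHull ℝ (Set.range (T i))))
      (interior (convexHull ℝ (Set.range (T j))))) : CoversSquareOnce T := by
  classical
  intro q hq hl hu
  have hint : ∀ i, q ∈ convexHull ℝ (Set.range (T i)) →
      q ∈ interior (convexHull ℝ (Set.range (T i))) := fun i hi => by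
    rw [range_eq_triple] at hi ⊢
    obtain ⟨h1, h2, h3⟩ := (mem_convexHull_iff (hpos i) q).1 hi
    exact interior_of_pos (hpos i) (h1.lt_of_ne (hq i 0).symm) (h2.lt_of_ne (hq i 1).symm)
      (h3.lt_of_ne (hq i 2).symm)
  have hleft : ∑ i, indicatorTri (T i) q = if q ∈ Set.Icc ((0, 0) : Pt) (1, 1) then 1 else 0 := by
    simp only [indicatorTri_eq _ (hpos _)]
    split_ifs with hmem
    · obtain ⟨i, hi⟩ := Set.mem_iUnion.1 (hunion.ge hmem)
      rw [Finset.sum_eq_single i (fun j _ hji => if_neg fun hj =>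
        Set.disjoint_left.1 (hdisj hji) (hint j hj) (hint i hi)) (by simp), if_pos hi]
    · exact Finset.sum_eq_zero fun i _ => if_neg fun hi =>
        hmem (hunion.le (Set.mem_iUnion.2 ⟨i, hi⟩))
  rw [hleft]
  obtain ⟨x, y⟩ := q
  have hd : x ≠ y := fun e => hl 2 (by simp [lowerHalf, orient, cross, e])
  simp only [indicatorTri, lowerHalf, upperHalf, Fin.forall_fin_succ, orient,
    cross, Set.mem_Icc, Prod.mk_le_mk]
  simp
  rcases lt_or_gt_of_ne hd with hxy | hxy <;> split_ifs <;> first | rfl | (exfalso; grind)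

/-- **The theorem of Monsky**: the square has no dissection into an odd number of triangles of
equal area. -/
theorem not_odd_equidissection {n : ℕ} (hn : Odd n) (T : Fin n → Fin 3 → Pt)
    (hnd : ∀ i, orient (T i 0) (T i 1) (T i 2) ≠ 0)
    (hunion : ⋃ i, convexHull ℝ (Set.range (T i)) = Set.Icc (0, 0) (1, 1))
    (hdisj : Pairwise fun i j => Disjoint (interior (convexHull ℝ (Set.range (T i))))
      (interior (convexHull ℝ (Set.range (T j)))))
    (harea : ∀ i j, |orient (T i 0) (T i 1) (T i 2)| = |orient (T j 0) (T j 1) (T j 2)|) :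
    False := by
  classical
  set T' : Fin n → Fin 3 → Pt := fun i =>
    if 0 < orient (T i 0) (T i 1) (T i 2) then T i else ![T i 0, T i 2, T i 1]
  have hval : ∀ i,
      orient (T' i 0) (T' i 1) (T' i 2) = |orient (T i 0) (T i 1) (T i 2)| := fun i => by
    by_cases h : 0 < orient (T i 0) (T i 1) (T i 2)
    · simp only [T', if_pos h, abs_of_pos h]
    · rw [abs_of_nonpos (not_lt.1 h)]
      simp only [T', if_neg h]; simp [orient, cross]; ring
  have hpos : ∀ i, 0 < orient (T' i 0) (T' i 1) (T' i 2) := fun i => by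
    rw [hval]; exact abs_pos.2 (hnd i)
  have hrange : ∀ i, Set.range (T' i) = Set.range (T i) := fun i => by
    by_cases h : 0 < orient (T i 0) (T i 1) (T i 2)
    · simp only [T', if_pos h]
    · simp only [T', if_neg h, range_eq_triple]
      ext z
      simp
      tauto
  have hcov := coversSquareOnce_of_dissection hpos (by simp_rw [hrange]; exact hunion)
    (by simp_rw [hrange]; exact hdisj)
  obtain ⟨V, h2⟩ := exists_dyadic_valuationSubring
  obtain ⟨i, hi⟩ := hcov.exists_valuation_ge V hpos
  have hsum := hcov.sum_orient hpos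
  simp only [hval] at hsum hi
  rw [Finset.sum_congr rfl (fun j _ => harea j i), Finset.sum_const, Finset.card_univ,
    Fintype.card_fin, nsmul_eq_mul] at hsum
  have h := congrArg V.valuation hsum
  rw [map_mul, valuation_natCast_of_odd V h2 hn, one_mul] at h
  exact (h ▸ h2).not_ge hi

/-- Two triangles of equal area do dissect the square. -/
theorem exists_equidissection_two :
    ∃ T : Fin 2 → Fin 3 → Pt, (∀ i, orient (T i 0) (T i 1) (T i 2) = 1) ∧
      ⋃ i, convexHull ℝ (Set.range (T i)) = Set.Icc (0, 0) (1, 1) ∧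
      Pairwise fun i j => Disjoint (interior (convexHull ℝ (Set.range (T i))))
        (interior (convexHull ℝ (Set.range (T j)))) := by
  refine ⟨![lowerHalf, upperHalf], fun i => ?_, ?_, ?_⟩
  · fin_cases i <;> simp [lowerHalf, upperHalf, orient, cross]
  · have hl : 0 < orient (lowerHalf 0) (lowerHalf 1) (lowerHalf 2) := by
      simp [lowerHalf, orient, cross]
    have hu : 0 < orient (upperHalf 0) (upperHalf 1) (upperHalf 2) := by
      simp [upperHalf, orient, cross]
    ext ⟨x, y⟩
    simp only [Set.mem_iUnion, Fin.exists_fin_two, Matrix.cons_val_zero, Matrix.cons_val_one,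
      range_eq_triple, mem_convexHull_iff hl, mem_convexHull_iff hu, Set.mem_Icc, Prod.mk_le_mk]
    simp [lowerHalf, upperHalf, orient, cross]
    constructor
    · rintro (h | h) <;> refine ⟨⟨?_, ?_⟩, ?_, ?_⟩ <;> linarith [h.1, h.2.1, h.2.2]
    · rintro ⟨⟨h1, h2⟩, h3, h4⟩
      rcases le_total x y with h | h
      · exact Or.inr ⟨by linarith, by linarith, by linarith⟩
      · exact Or.inl ⟨by linarith, by linarith, by linarith⟩
  · have key : Disjoint (interior (convexHull ℝ (Set.range lowerHalf)))
        (interior (convexHull ℝ (Set.range upperHalf))) := by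
      rw [Set.disjoint_iff_inter_eq_empty, ← interior_inter, ← Set.not_nonempty_iff_eq_empty]
      rintro ⟨⟨x, y⟩, hxy⟩
      obtain ⟨U, hU, hUo, hmem⟩ := mem_interior.1 hxy
      have hsub : ∀ z ∈ U, z.1 = z.2 := fun z hz => by
        have h1 := (hU hz).1
        have h2 := (hU hz).2
        rw [range_eq_triple, mem_convexHull_iff (by simp [lowerHalf, orient, cross])] at h1
        rw [range_eq_triple, mem_convexHull_iff (by simp [upperHalf, orient, cross])] at h2
        simp [lowerHalf, upperHalf, orient, cross] at h1 h2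
        linarith [h1.2.2, h2.1]
      have hev : ∀ᶠ ε in nhdsWithin (0 : ℝ) {0}ᶜ, (x + ε, y) ∈ U :=
        Filter.Eventually.filter_mono nhdsWithin_le_nhds
          ((by fun_prop : Continuous fun ε : ℝ => (x + ε, y)).continuousAt.eventually_mem
            (hUo.mem_nhds (by simpa using hmem)))
      obtain ⟨ε, h1, h2⟩ := (hev.and self_mem_nhdsWithin).exists
      have := hsub _ hmem
      have := hsub _ h1
      exact h2 (by simp only [Set.mem_singleton_iff]; dsimp at *; linarith)
    intro i j hij
    fin_cases i <;> fin_cases j <;> first | exact absurd rfl hij | exact key | exact key.symm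

end Fermat.Agent.Equidissection
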